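import Fermat.Agent.Torsion.Card
import Fermat.Prelude.Def_EllipticCurve_FrobeniusTrace
import Mathlib

/-!
The interface to the torsion results, in the language of the prelude
(`Submodule.torsionBy ℤ (W⁄K).Point n`).
-/

set_option autoImplicit false

open scoped WeierstrassCurve.Affine
open WeierstrassCurve WeierstrassCurve.Affine WeierstrassCurve.Affine.Point

namespace FLTAgent.Torsion

universe r s v

variable {R : Type r} {S : Type s} {K : Type v} [CommRing R] [Field K] [DecidableEq K]
  [Algebra R K] {W : WeierstrassCurve R}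

lemma mem_torsionBy_iff_nsmul {n : ℕ} {P : (W⁄K).Point} :
    P ∈ Submodule.torsionBy ℤ (W⁄K).Point n ↔ n • P = 0 := by
  rw [Submodule.mem_torsionBy_iff, natCast_zsmul]

lemma card_torsionBy_eq_card_ker (n : ℕ) :
    Nat.card (Submodule.torsionBy ℤ (W⁄K).Point n) =
      Nat.card {P : (W⁄K).Point // n • P = 0} :=
  Nat.card_congr (Equiv.subtypeEquivRight fun _ ↦ mem_torsionBy_iff_nsmul)

omit [DecidableEq K] in
lemma isElliptic_baseChange_of_ne_zero (h : algebraMap R K W.Δ ≠ 0) :
    WeierstrassCurve.IsElliptic (W⁄K) :=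
  ⟨by
    change IsUnit (W.map (algebraMap R K)).Δ
    rw [WeierstrassCurve.map_Δ]
    exact isUnit_iff_ne_zero.mpr h⟩

omit [DecidableEq K] in
/-- Base change preserves being elliptic. -/
lemma isElliptic_baseChange [W.IsElliptic] : WeierstrassCurve.IsElliptic (W⁄K) :=
  inferInstanceAs (W.map (algebraMap R K)).IsElliptic

/-- Over an algebraically closed field in which `n` is invertible, `E[n]` has order `n ^ 2`. -/
theorem card_torsionBy [IsAlgClosed K] [WeierstrassCurve.IsElliptic (W⁄K)] {n : ℕ}
    (hn : (n : K) ≠ 0) :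
    Nat.card (Submodule.torsionBy ℤ (W⁄K).Point n) = n ^ 2 := by
  rw [card_torsionBy_eq_card_ker, card_ker_nsmul hn]

theorem finite_torsionBy [IsAlgClosed K] [WeierstrassCurve.IsElliptic (W⁄K)] {n : ℕ}
    (hn : (n : K) ≠ 0) :
    Finite (Submodule.torsionBy ℤ (W⁄K).Point n) := by
  refine Nat.finite_of_card_ne_zero ?_
  rw [card_torsionBy hn]
  exact pow_ne_zero 2 fun h ↦ hn (by simp [h])

/-- Over any field in which `n` is invertible, `E[n]` is finite. -/
theorem finite_torsionBy' [WeierstrassCurve.IsElliptic (W⁄K)] {n : ℕ} (hn : (n : K) ≠ 0) :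
    Finite (Submodule.torsionBy ℤ (W⁄K).Point n) := by
  classical
  let L := AlgebraicClosure K
  have : WeierstrassCurve.IsElliptic (W⁄L) := isElliptic_baseChange_of_ne_zero (K := L) <| by
    rw [IsScalarTower.algebraMap_apply R K L, map_ne_zero_iff _ (algebraMap K L).injective]
    have h := (W⁄K).isUnit_Δ.ne_zero
    change (W.map (algebraMap R K)).Δ ≠ 0 at h
    rwa [WeierstrassCurve.map_Δ] at h
  have hn' : (n : L) ≠ 0 := by
    rw [← map_natCast (algebraMap K L)]
    exact (map_ne_zero_iff _ (algebraMap K L).injective).mpr hn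
  have := finite_torsionBy (W := W) (K := L) hn'
  let f : (W⁄K).Point →+ (W⁄L).Point := Point.map (Algebra.ofId K L)
  refine Finite.of_injective
    (β := Submodule.torsionBy ℤ (W⁄L).Point n)
    (fun P ↦ ⟨f P.1, mem_torsionBy_iff_nsmul.mpr <| by
      rw [← map_nsmul f, mem_torsionBy_iff_nsmul.mp P.2, _root_.map_zero]⟩) ?_
  intro P Q h
  exact Subtype.ext (Point.map_injective _ (congrArg Subtype.val h))

/-- For a prime `p` invertible in the algebraically closed field, `E[p]` is a plane. -/
theorem finrank_torsionBy [IsAlgClosed K] [WeierstrassCurve.IsElliptic (W⁄K)] {p : ℕ}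
    [Fact p.Prime] (hp : (p : K) ≠ 0) :
    Module.finrank (ZMod p) (Submodule.torsionBy ℤ (W⁄K).Point p) = 2 := by
  have := finite_torsionBy (W := W) hp
  have h := Module.natCard_eq_pow_finrank (K := ZMod p)
    (V := Submodule.torsionBy ℤ (W⁄K).Point p)
  rw [card_torsionBy hp, Nat.card_zmod] at h
  exact (Nat.pow_right_injective (Fact.out : p.Prime).two_le h).symm

section Galois

variable [Field S] [Algebra R S] [Algebra S K] [IsScalarTower R S K]

lemma exists_finite_level [Algebra.IsAlgebraic S K] (T : Set (W⁄K).Point) [Finite T] :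
    ∃ L : IntermediateField S K, FiniteDimensional S L ∧
      ∀ σ : K ≃ₐ[S] K, (∀ x ∈ L, σ x = x) → ∀ P ∈ T, σ • P = P := by
  classical
  let coords : (W⁄K).Point → Set K := fun P ↦
    match P with
    | 0 => ∅
    | .some x y _ => {x, y}
  have hfin : (⋃ P ∈ T, coords P).Finite := (Set.toFinite T).biUnion fun P _ ↦ by
    match P with
    | 0 => exact Set.finite_empty
    | .some x y _ => exact Set.toFinite _
  have := hfin.to_subtype
  refine ⟨IntermediateField.adjoin S (⋃ P ∈ T, coords P),
    IntermediateField.finiteDimensional_adjoin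
      fun x _ ↦ (Algebra.IsAlgebraic.isAlgebraic x).isIntegral, fun σ hσ P hP ↦ ?_⟩
  match P with
  | 0 => exact smul_zero σ
  | .some x y h =>
    rw [algEquiv_smul_def, Point.map_some, Point.some.injEq]
    exact ⟨hσ x (IntermediateField.subset_adjoin _ _
        (Set.mem_biUnion hP (by simp [coords]))),
      hσ y (IntermediateField.subset_adjoin _ _ (Set.mem_biUnion hP (by simp [coords])))⟩

/-- The Galois action on `E[n]` factors through a finite extension. -/
theorem exists_finite_level_torsionBy [Algebra.IsAlgebraic S K] {n : ℕ}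
    [Finite (Submodule.torsionBy ℤ (W⁄K).Point n)] :
    ∃ L : IntermediateField S K, FiniteDimensional S L ∧
      ∀ σ : K ≃ₐ[S] K, (∀ x ∈ L, σ x = x) →
        ∀ P : Submodule.torsionBy ℤ (W⁄K).Point n, σ • P = P := by
  have : Finite ((Submodule.torsionBy ℤ (W⁄K).Point n : Set (W⁄K).Point)) :=
    inferInstanceAs (Finite (Submodule.torsionBy ℤ (W⁄K).Point n))
  obtain ⟨L, hL, h⟩ := exists_finite_level (S := S)
    (Submodule.torsionBy ℤ (W⁄K).Point n : Set (W⁄K).Point)
  exact ⟨L, hL, fun σ hσ P ↦ Subtype.ext (h σ hσ P.1 P.2)⟩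

/-- The kernel of the Galois action on `E[n]` is open. -/
theorem isOpen_fixing_torsionBy [Algebra.IsAlgebraic S K] {n : ℕ}
    [Finite (Submodule.torsionBy ℤ (W⁄K).Point n)] :
    IsOpen {σ : K ≃ₐ[S] K | ∀ P : Submodule.torsionBy ℤ (W⁄K).Point n, σ • P = P} := by
  obtain ⟨L, hL, h⟩ := exists_finite_level_torsionBy (S := S) (W := W) (K := K) (n := n)
  let H : Subgroup (K ≃ₐ[S] K) :=
    { carrier := {σ | ∀ P : Submodule.torsionBy ℤ (W⁄K).Point n, σ • P = P}
      mul_mem' := fun {a b} ha hb P ↦ by rw [mul_smul, hb P, ha P]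
      one_mem' := fun P ↦ one_smul _ P
      inv_mem' := fun {a} ha P ↦ by
        conv_lhs => rw [← ha P]
        rw [inv_smul_smul] }
  exact Subgroup.isOpen_mono (H₂ := H)
    (fun σ hσ ↦ h σ ((IntermediateField.mem_fixingSubgroup_iff _ _).mp hσ))
    (IntermediateField.fixingSubgroup_isOpen L)

end Galois

section Rat

open WeierstrassCurve.Affine.Point

variable (E : WeierstrassCurve ℚ)

/-- `#E[n] = n ^ 2` over `ℚ̄`. -/
theorem card_torsionBy_rat [E.IsElliptic] {n : ℕ} (hn : n ≠ 0) :
    Nat.card (Submodule.torsionBy ℤ (E⁄(AlgebraicClosure ℚ)).Point n) = n ^ 2 :=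
  have := isElliptic_baseChange (K := AlgebraicClosure ℚ) (W := E);
  card_torsionBy (Nat.cast_ne_zero.mpr hn)

theorem finite_torsionBy_rat [E.IsElliptic] {n : ℕ} (hn : n ≠ 0) :
    Finite (Submodule.torsionBy ℤ (E⁄(AlgebraicClosure ℚ)).Point n) :=
  have := isElliptic_baseChange (K := AlgebraicClosure ℚ) (W := E);
  finite_torsionBy (Nat.cast_ne_zero.mpr hn)

end Rat

end FLTAgent.Torsion
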