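import Fermat.Agent.Torsion.Basic
import Fermat.Prelude.Def_GaloisRep_Residual

/-!
`GaloisFactorsThroughFiniteLevel` for the torsion of an elliptic curve over `ℚ`.
-/

set_option autoImplicit false

open scoped WeierstrassCurve.Affine

namespace FLTAgent.Torsion

open WeierstrassCurve WeierstrassCurve.Affine.Point

theorem galoisFactorsThroughFiniteLevel_torsion (E : WeierstrassCurve ℚ) [E.IsElliptic] {n : ℕ}
    (hn : n ≠ 0) :
    GaloisFactorsThroughFiniteLevel
      (galoisRepModuleEnd (K := AlgebraicClosure ℚ) ℚ E n) := by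
  have := finite_torsionBy_rat E hn
  have : Algebra.IsAlgebraic ℚ (AlgebraicClosure ℚ) := AlgebraicClosure.isAlgebraic ℚ
  obtain ⟨L, hL, h⟩ := exists_finite_level_torsionBy (S := ℚ) (W := E)
    (K := AlgebraicClosure ℚ) (n := n)
  refine ⟨L, hL, fun σ hσ ↦ LinearMap.ext fun P ↦ ?_⟩
  rw [galoisRepModuleEnd_apply, h σ hσ P]
  rfl

end FLTAgent.Torsion
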