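import Mathlib.AlgebraicGeometry.EllipticCurve.Affine.AddSubMap
import Mathlib.Tactic.FieldSimp
import Mathlib.Tactic.LinearCombination

/-!
The map `addSubMap` computes the x-coordinates of `P + Q` and `P - Q`
from those of `P` and `Q`.
-/

set_option autoImplicit false

namespace FLTAgent.Torsion

open WeierstrassCurve WeierstrassCurve.Affine WeierstrassCurve.Affine.Point

variable {F : Type*} [Field F] (W : WeierstrassCurve.Affine F)

/-- The values of the three `addSubMap` polynomials. -/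
def addSubVal (v : Fin 3 → F) : Fin 3 → F :=
  ![v 0 ^ 2 - W.b₄ * v 0 * v 2 - W.b₆ * v 1 * v 2 - W.b₈ * v 2 ^ 2,
    2 * v 1 * v 0 + W.b₂ * v 0 * v 2 + W.b₄ * v 1 * v 2 + W.b₆ * v 2 ^ 2,
    v 1 ^ 2 - 4 * v 0 * v 2]

omit W in
lemma addSubVal_eq_eval (W : WeierstrassCurve.Affine F) (v : Fin 3 → F) :
    (fun i ↦ (W.addSubMap i).eval v) = addSubVal W v := by
  ext i
  fin_cases i <;> simp [WeierstrassCurve.addSubMap, addSubVal]

lemma addSubVal_ne_zero [W.IsElliptic] {v : Fin 3 → F} (hv : v ≠ 0) : addSubVal W v ≠ 0 := by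
  rw [← addSubVal_eq_eval]
  exact W.addSubMap_ne_zero hv

variable {W}

variable [DecidableEq F]

lemma addSubVal_of_X_ne {x₁ x₂ y₁ y₂ : F} (h₁ : W.Equation x₁ y₁) (h₂ : W.Equation x₂ y₂)
    (hx : x₁ ≠ x₂) :
    addSubVal W ![x₁ * x₂, x₁ + x₂, 1] = (x₁ - x₂) ^ 2 •
      ![W.addX x₁ x₂ (W.slope x₁ x₂ y₁ y₂) * W.addX x₁ x₂ (W.slope x₁ x₂ y₁ (W.negY x₂ y₂)),
        W.addX x₁ x₂ (W.slope x₁ x₂ y₁ y₂) + W.addX x₁ x₂ (W.slope x₁ x₂ y₁ (W.negY x₂ y₂)),
        1] := by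
  rw [equation_iff'] at h₁ h₂
  set s₁ := W.a₁ * x₁ + W.a₃ with hs₁
  set s₂ := W.a₁ * x₂ + W.a₃ with hs₂
  set f₁ := x₁ ^ 3 + W.a₂ * x₁ ^ 2 + W.a₄ * x₁ + W.a₆ with hf₁
  set f₂ := x₂ ^ 3 + W.a₂ * x₂ ^ 2 + W.a₄ * x₂ + W.a₆ with hf₂
  have hd : x₁ - x₂ ≠ 0 := sub_ne_zero.mpr hx
  set d := x₁ - x₂ with hd'
  set u := W.addX x₁ x₂ (W.slope x₁ x₂ y₁ y₂) with hu
  set v := W.addX x₁ x₂ (W.slope x₁ x₂ y₁ (W.negY x₂ y₂)) with hv
  set P := f₁ + f₂ - (W.a₂ + x₁ + x₂) * d ^ 2 - s₂ * y₁ with hP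
  set Q := -2 * y₁ - s₁ with hQ
  have hu' : d ^ 2 * u = P + Q * y₂ := by
    rw [hu, slope_of_X_ne hx, addX, ← hd']
    field_simp
    linear_combination h₁ + h₂
  have hv' : d ^ 2 * v = P + Q * (-y₂ - s₂) := by
    rw [hv, slope_of_X_ne hx, addX, negY, ← hd']
    field_simp
    linear_combination h₁ + h₂
  have hprod : d ^ 4 * (u * v) = P ^ 2 - P * Q * s₂ - Q ^ 2 * f₂ := by
    linear_combination d ^ 2 * v * hu' + (P + Q * y₂) * hv' - Q ^ 2 * h₂
  have key₀ : (x₁ * x₂) ^ 2 - W.b₄ * (x₁ * x₂) - W.b₆ * (x₁ + x₂) - W.b₈ = d ^ 2 * (u * v) := by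
    apply mul_left_cancel₀ (pow_ne_zero 2 hd)
    have : d ^ 2 * ((x₁ * x₂) ^ 2 - W.b₄ * (x₁ * x₂) - W.b₆ * (x₁ + x₂) - W.b₈) =
        P ^ 2 - P * Q * s₂ - Q ^ 2 * f₂ := by
      simp only [hP, hQ, hf₁, hf₂, hs₁, hs₂, hd', b₄, b₆, b₈]
      linear_combination (s₂ ^ 2 + 4 * f₂) * h₁
    linear_combination this - hprod
  have key₁ : 2 * (x₁ + x₂) * (x₁ * x₂) + W.b₂ * (x₁ * x₂) + W.b₄ * (x₁ + x₂) + W.b₆ =
      d ^ 2 * (u + v) := by
    rw [show d ^ 2 * (u + v) = d ^ 2 * u + d ^ 2 * v by ring, hu', hv']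
    simp only [hP, hQ, hf₁, hf₂, hs₁, hs₂, hd', b₂, b₄, b₆]
    ring
  ext i
  fin_cases i <;> simp [addSubVal]
  · exact key₀
  · exact key₁
  · ring

lemma addSubVal_of_Y_ne {x y : F} (h : W.Equation x y) (hy : y ≠ W.negY x y) :
    addSubVal W ![x * x, x + x, 1] = (y - W.negY x y) ^ 2 •
      ![W.addX x x (W.slope x x y y), 1, 0] := by
  rw [equation_iff'] at h
  have hd : y - W.negY x y ≠ 0 := sub_ne_zero.mpr hy
  rw [slope_of_Y_ne rfl hy]
  set u := y - W.negY x y with hu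
  have hu' : u = 2 * y + W.a₁ * x + W.a₃ := by rw [hu, negY]; ring
  ext i
  fin_cases i <;> simp [addSubVal, -negY, addX]
  · field_simp
    simp only [hu', b₄, b₆, b₈]
    linear_combination (W.a₁ ^ 2 + 4 * W.a₂ + 8 * x) * h
  · simp only [hu', b₂, b₄, b₆]
    linear_combination -4 * h
  · ring

lemma exists_addSubVal_sym2x [W.IsElliptic] (P Q : W.Point) :
    ∃ c : F, c ≠ 0 ∧ addSubVal W (P.sym2x Q) = c • (P + Q).sym2x (P - Q) := by
  match P, Q with
  | 0, 0 => exact ⟨1, one_ne_zero, by simp [addSubVal]⟩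
  | 0, Point.some x y h =>
    refine ⟨1, one_ne_zero, ?_⟩
    rw [zero_add, zero_sub, neg_some]
    simp [addSubVal]
    constructor <;> ring
  | Point.some x y h, 0 =>
    refine ⟨1, one_ne_zero, ?_⟩
    rw [add_zero, sub_zero]
    simp [addSubVal]
    constructor <;> ring
  | Point.some x₁ y₁ h₁, Point.some x₂ y₂ h₂ =>
    by_cases hx : x₁ = x₂
    · -- reduce to `P = Q`
      suffices H : ∀ R : W.Point, ∃ c : F, c ≠ 0 ∧
          addSubVal W (R.sym2x R) = c • (R + R).sym2x (R - R) by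
        rcases (X_eq_iff (h₁ := h₁) (h₂ := h₂)).mp hx with e | e
        · rw [e]
          exact H _
        · obtain ⟨c, hc, hc'⟩ := H (Point.some x₂ y₂ h₂)
          refine ⟨c, hc, ?_⟩
          rw [e, sym2x_neg_left, hc']
          rw [neg_add_cancel, sub_self, sym2x_comm,
            show -Point.some x₂ y₂ h₂ - Point.some x₂ y₂ h₂ = -(Point.some x₂ y₂ h₂ + Point.some x₂ y₂ h₂) by abel,
            sym2x_neg_right]
      intro R
      match R with
      | 0 => exact ⟨1, one_ne_zero, by simp [addSubVal]⟩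
      | Point.some x y h =>
        rw [sub_self, sym2x_some_some]
        by_cases hy : y = W.negY x y
        · rw [add_self_of_Y_eq hy, sym2x_zero_zero]
          have hne := addSubVal_ne_zero W (v := ![x * x, x + x, 1]) (by simp)
          have he := (equation_iff' x y).mp h.1
          have hu : 2 * y + W.a₁ * x + W.a₃ = 0 := by
            rw [negY] at hy; linear_combination hy
          have e₁ : addSubVal W ![x * x, x + x, 1] 1 = 0 := by
            simp [addSubVal, b₂, b₄, b₆]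
            linear_combination (2 * y + W.a₁ * x + W.a₃) * hu - 4 * he
          have e₂ : addSubVal W ![x * x, x + x, 1] 2 = 0 := by
            simp [addSubVal]
            ring
          refine ⟨addSubVal W ![x * x, x + x, 1] 0, fun h0 ↦ hne ?_, ?_⟩
          · ext i; fin_cases i <;> simp [h0, e₁, e₂]
          · ext i; fin_cases i <;> simp [e₁, e₂]
        · rw [add_self_of_Y_ne hy, sym2x_some_zero]
          exact ⟨_, pow_ne_zero 2 (sub_ne_zero.mpr hy), addSubVal_of_Y_ne h.1 hy⟩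
    · refine ⟨(x₁ - x₂) ^ 2, pow_ne_zero 2 (sub_ne_zero.mpr hx), ?_⟩
      rw [show Point.some x₁ y₁ h₁ - Point.some x₂ y₂ h₂ = Point.some x₁ y₁ h₁ + -Point.some x₂ y₂ h₂ from
          sub_eq_add_neg _ _, neg_some, add_of_X_ne hx, add_of_X_ne hx, sym2x_some_some,
        sym2x_some_some]
      exact addSubVal_of_X_ne h₁.1 h₂.1 hx

/-- If two products of binary linear forms are proportional and share a nonzero factor, then the
other factors are proportional. -/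
lemma eq_smul_of_mul_form_eq {s r q : Fin 2 → F} {c : F} (hs : s ≠ 0)
    (h₀ : r 0 * s 0 = c * (q 0 * s 0))
    (h₁ : r 0 * s 1 + r 1 * s 0 = c * (q 0 * s 1 + q 1 * s 0))
    (h₂ : r 1 * s 1 = c * (q 1 * s 1)) :
    r = c • q := by
  suffices h : r 0 - c * q 0 = 0 ∧ r 1 - c * q 1 = 0 by
    ext i
    fin_cases i
    · simpa [sub_eq_zero] using h.1
    · simpa [sub_eq_zero] using h.2
  by_cases h0 : s 0 = 0
  · have h1 : s 1 ≠ 0 := fun h1 ↦ hs <| by ext i; fin_cases i <;> simp [h0, h1]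
    refine ⟨(mul_eq_zero.mp (?_ : (r 0 - c * q 0) * s 1 = 0)).resolve_right h1,
      (mul_eq_zero.mp (?_ : (r 1 - c * q 1) * s 1 = 0)).resolve_right h1⟩
    · linear_combination h₁ - (r 1 - c * q 1) * h0
    · linear_combination h₂
  · have e₀ : r 0 - c * q 0 = 0 :=
      (mul_eq_zero.mp (by linear_combination h₀ : (r 0 - c * q 0) * s 0 = 0)).resolve_right h0
    refine ⟨e₀, (mul_eq_zero.mp (?_ : (r 1 - c * q 1) * s 0 = 0)).resolve_right h0⟩
    linear_combination h₁ - s 1 * e₀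

end FLTAgent.Torsion
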