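import Fermat.Agent.Torsion.MulPoly
import Mathlib.AlgebraicGeometry.EllipticCurve.DivisionPolynomial.Degree
import Mathlib.FieldTheory.Separable
import Mathlib.SetTheory.Cardinal.Finite

/-!
`#E[n] = n ^ 2` over an algebraically closed field in which `n` is invertible.
-/

set_option autoImplicit false

open Polynomial

namespace FLTAgent.Torsion

open WeierstrassCurve WeierstrassCurve.Affine WeierstrassCurve.Affine.Point

variable {K : Type*} [Field K] [DecidableEq K] {W : WeierstrassCurve.Affine K}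

/-- The x-coordinate, with junk value at infinity. -/
def xCoord : W.Point → K
  | 0 => 0
  | .some x _ _ => x

lemma IsMulPoly.nsmul_eq_zero_iff {n : ℕ} {A B : K[X]} (h : IsMulPoly W n A B) {x y : K}
    (hxy : W.Nonsingular x y) : n • Point.some x y hxy = 0 ↔ B.eval x = 0 := by
  obtain ⟨c, hc, hr⟩ := h.xRep_nsmul x y hxy
  generalize n • Point.some x y hxy = Q at hr
  match Q with
  | 0 =>
    have := congrFun hr 1
    simp [hc] at this
    simpa using this
  | .some u v huv =>
    have := congrFun hr 1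
    simp at this
    constructor
    · exact fun h0 ↦ absurd h0 (some_ne_zero huv)
    · intro h0
      simp [h0] at this

lemma IsMulPoly.exists_nsmul_eq {n : ℕ} {A B : K[X]} (h : IsMulPoly W n A B) {x y : K}
    (hxy : W.Nonsingular x y) (hB : B.eval x ≠ 0) :
    ∃ v, ∃ hv : W.Nonsingular (A.eval x / B.eval x) v,
      n • Point.some x y hxy = Point.some _ v hv := by
  obtain ⟨c, hc, hr⟩ := h.xRep_nsmul x y hxy
  have hne := mt (h.nsmul_eq_zero_iff hxy).mp hB
  generalize hQ : n • Point.some x y hxy = Q at hr hne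
  match Q with
  | 0 => exact absurd rfl hne
  | .some u v huv =>
    have h0 := congrFun hr 0
    have h1 := congrFun hr 1
    simp at h0 h1
    have hu : u = A.eval x / B.eval x := by
      rw [eq_div_iff hB]
      linear_combination B.eval x * h0 - A.eval x * h1
    subst hu
    exact ⟨v, huv, rfl⟩

omit [DecidableEq K] in
lemma Ψ₂Sq_ne_zero' [W.IsElliptic] : W.Ψ₂Sq ≠ 0 := by
  intro h
  refine W.isUnit_Δ.ne_zero ?_
  have h4 : (4 : K) = 0 := by
    have := congrArg (fun p ↦ p.coeff 3) h
    simpa using this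
  have h2 : W.b₂ = 0 := by
    have := congrArg (fun p ↦ p.coeff 2) h
    simpa [Ψ₂Sq, coeff_X_of_ne_one, coeff_C] using this
  have h6 : W.b₆ = 0 := by
    have := congrArg (fun p ↦ p.coeff 0) h
    simpa [Ψ₂Sq, coeff_C] using this
  rw [Δ, h2, h6]
  linear_combination (-2 * W.b₄ ^ 3) * h4

omit [DecidableEq K] in
lemma eval_Ψ₂Sq {x y : K} (h : W.Equation x y) :
    W.Ψ₂Sq.eval x = (y - W.negY x y) ^ 2 := by
  rw [equation_iff'] at h
  simp [Ψ₂Sq, negY, b₂, b₄, b₆]
  linear_combination -4 * h

/-- Over an algebraically closed field in which `n` is invertible, `E[n]` has order `n ^ 2`. -/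
theorem card_ker_nsmul [IsAlgClosed K] [W.IsElliptic] {n : ℕ} (hn : (n : K) ≠ 0) :
    Nat.card {P : W.Point // n • P = 0} = n ^ 2 := by
  obtain ⟨A, B, h⟩ := exists_isMulPoly (W := W) n
  have hn0 : n ≠ 0 := fun h0 ↦ hn (by simp [h0])
  have hpos : 1 ≤ n ^ 2 := Nat.one_le_pow _ _ (Nat.pos_of_ne_zero hn0)
  have hdA : derivative A ≠ 0 := fun h0 ↦ by
    have := congrArg (fun p ↦ p.coeff (n ^ 2 - 1)) h0
    simp only [coeff_derivative, coeff_zero, Nat.sub_add_cancel hpos] at this
    rw [← h.natDegree_eq, h.monic.coeff_natDegree, one_mul, ← Nat.cast_add_one,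
      h.natDegree_eq, Nat.sub_add_cancel hpos] at this
    exact pow_ne_zero 2 hn (by exact_mod_cast this)
  set w := derivative A * B - A * derivative B with hw
  have hw0 : w ≠ 0 := fun h0 ↦ by
    have hd : A ∣ derivative A := h.coprime.dvd_of_dvd_mul_right ⟨derivative B, by
      linear_combination h0⟩
    exact hdA (eq_zero_of_dvd_of_natDegree_lt hd (natDegree_derivative_lt (by
      rw [h.natDegree_eq]; omega)))
  classical
  obtain ⟨c, hc⟩ := Infinite.exists_notMem_finset
    (W.Ψ₂Sq.roots.toFinset ∪ w.roots.toFinset.image fun r ↦ A.eval r / B.eval r)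
  simp only [Finset.mem_union, Multiset.mem_toFinset, mem_roots Ψ₂Sq_ne_zero',
    Finset.mem_image, not_or, not_exists, not_and] at hc
  obtain ⟨hcΨ, hcw⟩ := hc
  obtain ⟨d, hd⟩ := exists_point_of_X (W := W) c
  set Q := Point.some c d hd with hQ
  have hQQ : -Q ≠ Q := by
    intro he
    rw [hQ, neg_some, Point.some.injEq] at he
    refine hcΨ ?_
    rw [IsRoot.def, eval_Ψ₂Sq hd.1, he.2, sub_self, zero_pow two_ne_zero]
  set f := A - C c * B with hf
  have hlt : (C c * B).degree < ((n ^ 2 : ℕ) : WithBot ℕ) :=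
    (C_mul' c B ▸ degree_smul_le c B).trans_lt h.degree_lt
  have hfdeg : f.natDegree = n ^ 2 := by
    rw [hf, natDegree_eq_of_degree_eq (degree_sub_eq_left_of_degree_lt ?_), h.natDegree_eq]
    rwa [degree_eq_natDegree h.monic.ne_zero, h.natDegree_eq]
  have hf0 : f ≠ 0 := fun h0 ↦ by simp [h0] at hfdeg; omega
  have hroot : ∀ r, f.IsRoot r → B.eval r ≠ 0 ∧ A.eval r / B.eval r = c := by
    intro r hr
    simp [hf, IsRoot.def] at hr
    have hB : B.eval r ≠ 0 := fun h0 ↦ by
      refine h.eval_ne_zero r ?_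
      simp [h0] at hr
      simp [h0, hr]
    exact ⟨hB, by rw [div_eq_iff hB]; linear_combination hr⟩
  have hnodup : f.roots.Nodup := by
    refine nodup_roots ?_
    rw [separable_def, Polynomial.isCoprime_iff_aeval_ne_zero_of_isAlgClosed K K]
    intro r
    by_contra hr
    push Not at hr
    rw [aeval_def, aeval_def] at hr
    simp at hr
    obtain ⟨hr, hr'⟩ := hr
    obtain ⟨hB, hAB⟩ := hroot r hr
    refine hcw r ((mem_roots hw0).mpr ?_) hAB
    simp [hf, sub_eq_zero] at hr hr'
    simp [hw, IsRoot.def, hr, hr']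
    ring
  have hcard : f.roots.toFinset.card = n ^ 2 := by
    rw [Multiset.toFinset_card_of_nodup hnodup, IsAlgClosed.card_roots_eq_natDegree, hfdeg]
  -- the fibre over `Q` is in bijection with the roots
  have hfib : ∀ {x y : K} (hxy : W.Nonsingular x y), n • Point.some x y hxy = Q →
      f.IsRoot x := by
    intro x y hxy he
    have hB : B.eval x ≠ 0 := fun h0 ↦ some_ne_zero hd <| by
      rw [← hQ, ← he, (h.nsmul_eq_zero_iff hxy).mpr h0]
    obtain ⟨v, hv, hv'⟩ := h.exists_nsmul_eq hxy hB
    rw [he, hQ, Point.some.injEq] at hv'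
    rw [IsRoot.def, hf, eval_sub, eval_mul, eval_C, hv'.1]
    field_simp
    ring
  have hbij : Set.BijOn xCoord {P : W.Point | n • P = Q} {r | f.IsRoot r} := by
    refine ⟨fun P hP ↦ ?_, fun P hP P' hP' he ↦ ?_, fun r hr ↦ ?_⟩
    · match P with
      | 0 => exact absurd ((nsmul_zero n).symm.trans hP).symm (some_ne_zero hd)
      | .some x y hxy => exact hfib hxy hP
    · simp only [Set.mem_ofPred_eq] at hP hP'
      match P, P' with
      | 0, _ => exact absurd ((nsmul_zero n).symm.trans hP).symm (some_ne_zero hd)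
      | _, 0 => exact absurd ((nsmul_zero n).symm.trans hP').symm (some_ne_zero hd)
      | .some x y hxy, .some x' y' hxy' =>
        rcases (X_eq_iff (h₁ := hxy) (h₂ := hxy')).mp he with e | e
        · exact e
        · rw [e, neg_nsmul, hP'] at hP
          exact absurd hP hQQ
    · obtain ⟨hB, hAB⟩ := hroot r hr
      obtain ⟨s, hs⟩ := exists_point_of_X (W := W) r
      obtain ⟨v, hv, hv'⟩ := h.exists_nsmul_eq hs hB
      rcases (X_eq_iff (h₁ := hv) (h₂ := hd)).mp hAB with e | e
      · exact ⟨Point.some r s hs, hv'.trans e, rfl⟩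
      · refine ⟨-Point.some r s hs, ?_, by rw [neg_some]; rfl⟩
        change n • _ = Q
        rw [neg_nsmul, hv', e, neg_neg]
  have hne : 0 < f.roots.toFinset.card := hcard ▸ hpos
  obtain ⟨r, hr⟩ := Finset.card_pos.mp hne
  obtain ⟨P₀, hP₀, -⟩ := hbij.surjOn (show r ∈ {r | f.IsRoot r} by
    simpa [hf0] using hr)
  calc Nat.card {P : W.Point // n • P = 0}
      = Nat.card {P : W.Point // n • P = Q} := Nat.card_congr
        ((Equiv.addRight P₀).subtypeEquiv fun P ↦ by
          simp only [Equiv.coe_addRight, nsmul_add, Set.mem_ofPred_eq.mp hP₀]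
          simp)
    _ = Nat.card {r // f.IsRoot r} := Nat.card_congr (hbij.equiv _)
    _ = n ^ 2 := by
      rw [← hcard, ← Nat.card_eq_finsetCard]
      exact Nat.card_congr (Equiv.subtypeEquivRight fun r ↦ by simp [hf0])

end FLTAgent.Torsion
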