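import Fermat.Agent.Torsion.SumSub
import Mathlib.FieldTheory.IsAlgClosed.Basic
import Mathlib.RingTheory.Polynomial.Content
import Mathlib.Algebra.Polynomial.Monic
import Mathlib.Tactic.ComputeDegree

/-!
Multiplication by `n` on x-coordinates: coprime polynomials `A`, `B` of degree `n ^ 2`, `< n ^ 2`
such that `x (n • P) = A (x P) / B (x P)`.
-/

set_option autoImplicit false

open Polynomial

namespace FLTAgent.Torsion

open WeierstrassCurve WeierstrassCurve.Affine WeierstrassCurve.Affine.Point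

variable {K : Type*} [Field K] [DecidableEq K] {W : WeierstrassCurve.Affine K}

variable (W) in
/-- `A / B` is the effect of multiplication by `n` on the x-coordinate. -/
structure IsMulPoly (n : ℕ) (A B : K[X]) : Prop where
  coprime : IsCoprime A B
  monic : A.Monic
  natDegree_eq : A.natDegree = n ^ 2
  degree_lt : B.degree < ((n ^ 2 : ℕ) : WithBot ℕ)
  coeff_pred : B.coeff (n ^ 2 - 1) = ((n : K)) ^ 2
  xRep_nsmul : ∀ (x y : K) (h : W.Nonsingular x y),
    ∃ c : K, c ≠ 0 ∧ (n • Point.some x y h).xRep = c • ![A.eval x, B.eval x]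

omit [DecidableEq K] in
lemma exists_point_of_X [IsAlgClosed K] [W.IsElliptic] (x : K) :
    ∃ y, W.Nonsingular x y := by
  obtain ⟨y, hy⟩ := IsAlgClosed.exists_root
    (C 1 * X ^ 2 + C (W.a₁ * x + W.a₃) * X + C (-(x ^ 3 + W.a₂ * x ^ 2 + W.a₄ * x + W.a₆)))
    (by rw [degree_quadratic one_ne_zero]; decide)
  refine ⟨y, equation_iff_nonsingular.mp ((equation_iff' x y).mpr ?_)⟩
  simp [IsRoot.def] at hy
  linear_combination hy

lemma isMulPoly_zero : IsMulPoly W 0 1 0 where
  coprime := isCoprime_one_left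
  monic := monic_one
  natDegree_eq := by simp
  degree_lt := by simp
  coeff_pred := by simp
  xRep_nsmul x y h := ⟨1, one_ne_zero, by simp⟩

lemma isMulPoly_one : IsMulPoly W 1 X 1 where
  coprime := isCoprime_one_right
  monic := monic_X
  natDegree_eq := by simp
  degree_lt := by simp
  coeff_pred := by simp
  xRep_nsmul x y h := ⟨1, one_ne_zero, by simp⟩

lemma IsMulPoly.natDegree_le {n : ℕ} {A B : K[X]} (h : IsMulPoly W n A B) :
    B.natDegree ≤ n ^ 2 - 1 := by
  by_cases hB : B = 0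
  · simp [hB]
  · have := (natDegree_lt_iff_degree_lt hB).mpr h.degree_lt
    omega

lemma IsMulPoly.eval_ne_zero {n : ℕ} {A B : K[X]} (h : IsMulPoly W n A B) (x : K) :
    ![A.eval x, B.eval x] ≠ 0 := by
  intro h0
  have h1 : A.eval x = 0 := by simpa using congrFun h0 0
  have h2 : B.eval x = 0 := by simpa using congrFun h0 1
  obtain ⟨u, v, huv⟩ := h.coprime
  have := congrArg (Polynomial.eval x) huv
  simp [h1, h2] at this

omit [DecidableEq K] in
lemma addSubVal_smul (W : WeierstrassCurve.Affine K) (c : K) (v : Fin 3 → K) :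
    addSubVal W (c • v) = c ^ 2 • addSubVal W v := by
  ext i
  fin_cases i <;> simp [addSubVal] <;> ring

variable (W) in
/-- The components of `addSubMap` applied to `(A : B)` and `(X : 1)`. -/
noncomputable def stepPoly (A B : K[X]) : Fin 3 → K[X] :=
  ![(X * A) ^ 2 - (C W.b₄ * (X * A * B) + C W.b₆ * ((A + X * B) * B) + C W.b₈ * B ^ 2),
    C 2 * ((A + X * B) * (X * A)) +
      (C W.b₂ * (X * A * B) + C W.b₄ * ((A + X * B) * B) + C W.b₆ * B ^ 2),
    (A - X * B) ^ 2]

omit [DecidableEq K] in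
lemma eval_stepPoly (A B : K[X]) (x : K) :
    (fun i ↦ (stepPoly W A B i).eval x) =
      addSubVal W ![x * A.eval x, A.eval x + x * B.eval x, B.eval x] := by
  ext i
  fin_cases i <;> simp [stepPoly, addSubVal] <;> ring

lemma IsMulPoly.step_relation [IsAlgClosed K] [W.IsElliptic] {m : ℕ} {A' B' A B : K[X]}
    (h' : IsMulPoly W m A' B') (h : IsMulPoly W (m + 1) A B) (x y : K)
    (hxy : W.Nonsingular x y) :
    ∃ c : K, c ≠ 0 ∧
      let r := ((m + 2) • Point.some x y hxy).xRep
      (stepPoly W A B 0).eval x = c * (r 0 * A'.eval x) ∧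
      (stepPoly W A B 1).eval x = c * (r 0 * B'.eval x + r 1 * A'.eval x) ∧
      (stepPoly W A B 2).eval x = c * (r 1 * B'.eval x) := by
  set P := Point.some x y hxy with hP
  obtain ⟨c, hc, hn⟩ := h.xRep_nsmul x y hxy
  obtain ⟨c', hc', hn'⟩ := h'.xRep_nsmul x y hxy
  rw [← hP] at hn hn'
  obtain ⟨k, hk, hk'⟩ := exists_addSubVal_sym2x ((m + 1) • P) P
  rw [show (m + 1) • P + P = (m + 2) • P from (succ_nsmul P (m + 1)).symm,
    show (m + 1) • P - P = m • P by rw [succ_nsmul, add_sub_cancel_right]] at hk'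
  have hv : ((m + 1) • P).sym2x P =
      c • ![x * A.eval x, A.eval x + x * B.eval x, B.eval x] := by
    ext i
    simp only [sym2x, hn]
    fin_cases i <;> simp [P] <;> ring
  rw [hv, addSubVal_smul, ← eval_stepPoly] at hk'
  refine ⟨k * c' / c ^ 2, div_ne_zero (mul_ne_zero hk hc') (pow_ne_zero 2 hc), ?_, ?_, ?_⟩
  · have := congrFun hk' 0
    simp [sym2x, hn'] at this
    field_simp
    linear_combination this
  · have := congrFun hk' 1
    simp [sym2x, hn'] at this
    field_simp
    linear_combination this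
  · have := congrFun hk' 2
    simp [sym2x, hn'] at this
    field_simp
    linear_combination this

omit [DecidableEq K] in
lemma exists_factor {A' B' T₀ T₁ T₂ : K[X]} (hm : A'.Monic) (hco : IsCoprime A' B')
    (hid : T₀ * B' ^ 2 - T₁ * (A' * B') + T₂ * A' ^ 2 = 0) :
    ∃ C' D' : K[X], T₀ = A' * C' ∧ T₁ = A' * D' + C' * B' ∧ T₂ = B' * D' := by
  have hA : A' ≠ 0 := hm.ne_zero
  by_cases hB : B' = 0
  · subst hB
    have hA1 : A' = 1 := hm.eq_one_of_isUnit (isCoprime_zero_right.mp hco)
    subst hA1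
    refine ⟨T₀, T₁, by simp, by simp, ?_⟩
    simpa using hid
  · obtain ⟨C', hC⟩ : A' ∣ T₀ := by
      refine (hco.pow_right (n := 2)).dvd_of_dvd_mul_right ⟨T₁ * B' - T₂ * A', ?_⟩
      linear_combination hid
    obtain ⟨D', hD⟩ : B' ∣ T₂ := by
      refine (hco.symm.pow_right (n := 2)).dvd_of_dvd_mul_right ⟨T₁ * A' - T₀ * B', ?_⟩
      linear_combination hid
    refine ⟨C', D', hC, ?_, hD⟩
    apply mul_left_cancel₀ (mul_ne_zero hA hB)
    rw [hC, hD] at hid
    linear_combination -hid

omit [DecidableEq K] in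
lemma natDegree_stepRest_le {N : ℕ} (hN : 1 ≤ N) (a b c : K) {A B : K[X]}
    (hA : A.natDegree ≤ N) (hB : B.natDegree ≤ N - 1) :
    (C a * (X * A * B) + C b * ((A + X * B) * B) + C c * B ^ 2).natDegree ≤ 2 * N := by
  have hXB : (X * B).natDegree ≤ N := natDegree_mul_le.trans (by simp; omega)
  have h1 : (X * A * B).natDegree ≤ 2 * N :=
    natDegree_mul_le.trans (by
      have := (natDegree_mul_le (p := (X : K[X])) (q := A))
      simp at this
      omega)
  have h2 : ((A + X * B) * B).natDegree ≤ 2 * N :=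
    natDegree_mul_le.trans (by
      have := natDegree_add_le_of_degree_le hA hXB
      omega)
  have h3 : (B ^ 2).natDegree ≤ 2 * N := natDegree_pow_le.trans (by omega)
  exact natDegree_add_le_of_degree_le
    (natDegree_add_le_of_degree_le ((natDegree_C_mul_le _ _).trans h1)
      ((natDegree_C_mul_le _ _).trans h2))
    ((natDegree_C_mul_le _ _).trans h3)

lemma IsMulPoly.step [IsAlgClosed K] [W.IsElliptic] {m : ℕ} {A' B' A B : K[X]}
    (h' : IsMulPoly W m A' B') (h : IsMulPoly W (m + 1) A B) :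
    ∃ A'' B'' : K[X], IsMulPoly W (m + 2) A'' B'' := by
  set T := stepPoly W A B with hT
  have hid : T 0 * B' ^ 2 - T 1 * (A' * B') + T 2 * A' ^ 2 = 0 := by
    refine Polynomial.funext fun x ↦ ?_
    obtain ⟨y, hy⟩ := exists_point_of_X (W := W) x
    obtain ⟨c, -, e₀, e₁, e₂⟩ := h'.step_relation h x y hy
    simp only [← hT] at e₀ e₁ e₂
    simp [e₀, e₁, e₂]
    ring
  obtain ⟨U, V, hU, hV, hW⟩ := exists_factor h'.monic h'.coprime hid
  -- degrees
  set N := (m + 1) ^ 2 with hN
  have hN1 : 1 ≤ N := Nat.one_le_pow _ _ (Nat.succ_pos m)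
  have hsum : m ^ 2 + (m + 2) ^ 2 = 2 * N + 2 := by rw [hN]; ring
  have hpos : 1 ≤ (m + 2) ^ 2 := Nat.one_le_pow _ _ (Nat.succ_pos (m + 1))
  have hXA : (X * A).Monic := monic_X.mul h.monic
  have hXAd : (X * A).natDegree = N + 1 := by
    rw [natDegree_X_mul h.monic.ne_zero, h.natDegree_eq]
  have hrest₀ := natDegree_stepRest_le hN1 W.b₄ W.b₆ W.b₈ h.natDegree_eq.le h.natDegree_le
  have hrest₁ := natDegree_stepRest_le hN1 W.b₂ W.b₄ W.b₆ h.natDegree_eq.le h.natDegree_le
  have hT0d : (T 0).natDegree = 2 * N + 2 := by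
    rw [hT, stepPoly, Matrix.cons_val_zero, natDegree_sub_eq_left_of_natDegree_lt] <;>
      rw [(hXA.natDegree_pow 2), hXAd] <;> omega
  have hT0m : (T 0).Monic := by
    rw [hT, stepPoly, Matrix.cons_val_zero]
    refine (hXA.pow 2).sub_of_left ?_
    refine degree_lt_degree ?_
    rw [(hXA.natDegree_pow 2), hXAd]
    omega
  have hUm : U.Monic := h'.monic.of_mul_monic_left (hU ▸ hT0m)
  have hUd : U.natDegree = (m + 2) ^ 2 := by
    have := congrArg natDegree hU
    rw [hT0d, h'.monic.natDegree_mul hUm, h'.natDegree_eq] at this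
    omega
  have hts : ((A + X * B) * (X * A)).natDegree ≤ 2 * N + 1 := by
    refine natDegree_mul_le.trans ?_
    have hXB : (X * B).natDegree ≤ N := natDegree_mul_le.trans (by
      have := h.natDegree_le
      simp; omega)
    have := natDegree_add_le_of_degree_le h.natDegree_eq.le hXB
    omega
  have hT1d : (T 1).natDegree ≤ 2 * N + 1 := by
    rw [hT, stepPoly]
    exact natDegree_add_le_of_degree_le ((natDegree_C_mul_le _ _).trans hts)
      (hrest₁.trans (by omega))
  have hT1c : (T 1).coeff (2 * N + 1) = 2 * (1 + ((m + 1 : ℕ) : K) ^ 2) := by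
    simp only [hT, stepPoly, Matrix.cons_val_one, Matrix.cons_val_zero]
    rw [coeff_add, coeff_eq_zero_of_natDegree_lt (Nat.lt_succ_of_le hrest₁), add_zero,
      coeff_C_mul]
    congr 1
    rw [show (A + X * B) * (X * A) = X * (A * A) + X * (X * (A * B)) by ring, coeff_add,
      coeff_X_mul, coeff_X_mul, show 2 * N = (N + (N - 1)) + 1 by omega, coeff_X_mul,
      coeff_mul_add_eq_of_natDegree_le h.natDegree_eq.le h.natDegree_le, h.coeff_pred,
      show N + (N - 1) + 1 = N + N by omega,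
      coeff_mul_add_eq_of_natDegree_le h.natDegree_eq.le h.natDegree_eq.le,
      show A.coeff N = 1 by rw [hN, ← h.natDegree_eq]; exact h.monic.coeff_natDegree]
    ring
  have hB'0 : m = 0 → B' = 0 := fun hm ↦
    degree_eq_bot.mp <| Nat.WithBot.lt_zero_iff.mp (by simpa [hm] using h'.degree_lt)
  have hUB : (U * B').natDegree ≤ 2 * N + 1 := by
    rcases Nat.eq_zero_or_pos m with hm | hm
    · simp [hB'0 hm]
    · refine natDegree_mul_le.trans ?_
      have := h'.natDegree_le
      have : 1 ≤ m ^ 2 := Nat.one_le_pow _ _ hm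
      omega
  have hAV : (A' * V).natDegree ≤ 2 * N + 1 := by
    rw [show A' * V = T 1 - U * B' by rw [hV]; ring]
    exact (natDegree_sub_le _ _).trans (max_le hT1d hUB)
  have hVd : V.natDegree ≤ (m + 2) ^ 2 - 1 := by
    by_cases hV0 : V = 0
    · simp [hV0]
    · rw [natDegree_mul h'.monic.ne_zero hV0, h'.natDegree_eq] at hAV
      omega
  have hUBc : (U * B').coeff (2 * N + 1) = (m : K) ^ 2 := by
    rcases Nat.eq_zero_or_pos m with rfl | hm
    · simp [hB'0 rfl]
    · have : 1 ≤ m ^ 2 := Nat.one_le_pow _ _ hm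
      rw [show 2 * N + 1 = (m + 2) ^ 2 + (m ^ 2 - 1) by omega,
        coeff_mul_add_eq_of_natDegree_le hUd.le h'.natDegree_le, h'.coeff_pred,
        show U.coeff ((m + 2) ^ 2) = 1 from hUd ▸ hUm.coeff_natDegree, one_mul]
  have hVc : V.coeff ((m + 2) ^ 2 - 1) = ((m + 2 : ℕ) : K) ^ 2 := by
    have := congrArg (fun p ↦ p.coeff (2 * N + 1)) hV
    simp only [coeff_add] at this
    rw [hT1c, hUBc, show 2 * N + 1 = m ^ 2 + ((m + 2) ^ 2 - 1) by omega,
      coeff_mul_add_eq_of_natDegree_le h'.natDegree_eq.le hVd,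
      show A'.coeff (m ^ 2) = 1 from h'.natDegree_eq ▸ h'.monic.coeff_natDegree, one_mul] at this
    push_cast at this ⊢
    linear_combination -this
  have hne : ∀ x : K, ![U.eval x, V.eval x] ≠ 0 := by
    intro x h0
    have h1 : U.eval x = 0 := by simpa using congrFun h0 0
    have h2 : V.eval x = 0 := by simpa using congrFun h0 1
    have hz : (fun i ↦ (T i).eval x) = 0 := by
      ext i
      fin_cases i <;> simp [hU, hV, hW, h1, h2]
    rw [hT, eval_stepPoly] at hz
    refine addSubVal_ne_zero W (fun hv ↦ h.eval_ne_zero x ?_) hz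
    have e1 : A.eval x + x * B.eval x = 0 := by simpa using congrFun hv 1
    have e2 : B.eval x = 0 := by simpa using congrFun hv 2
    rw [e2, mul_zero, add_zero] at e1
    simp [e1, e2]
  refine ⟨U, V, ⟨?_, hUm, hUd, ?_, hVc, ?_⟩⟩
  · rw [Polynomial.isCoprime_iff_aeval_ne_zero_of_isAlgClosed K K]
    intro x
    by_contra hx
    push Not at hx
    refine hne x ?_
    rw [aeval_def, aeval_def] at hx
    simp at hx
    simp [hx.1, hx.2]
  · exact (natDegree_le_iff_degree_le.mp hVd).trans_lt (by exact_mod_cast Nat.sub_lt hpos one_pos)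
  · intro x y hxy
    obtain ⟨c, hc, e₀, e₁, e₂⟩ := h'.step_relation h x y hxy
    simp only [← hT, hU, hV, hW, eval_mul, eval_add] at e₀ e₁ e₂
    set r := ((m + 2) • Point.some x y hxy).xRep
    refine ⟨c⁻¹, inv_ne_zero hc, ?_⟩
    refine eq_smul_of_mul_form_eq (h'.eval_ne_zero x) ?_ ?_ ?_
    · simp
      field_simp
      linear_combination -e₀
    · simp
      field_simp
      linear_combination -e₁
    · simp
      field_simp
      linear_combination -e₂

lemma exists_isMulPoly [IsAlgClosed K] [W.IsElliptic] :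
    ∀ n : ℕ, ∃ A B : K[X], IsMulPoly W n A B := by
  suffices h : ∀ n : ℕ, (∃ A B : K[X], IsMulPoly W n A B) ∧
      ∃ A B : K[X], IsMulPoly W (n + 1) A B from fun n ↦ (h n).1
  intro n
  induction n with
  | zero => exact ⟨⟨_, _, isMulPoly_zero⟩, ⟨_, _, isMulPoly_one⟩⟩
  | succ n ih =>
    obtain ⟨⟨A', B', h'⟩, A, B, h⟩ := ih
    exact ⟨⟨A, B, h⟩, h'.step h⟩

end FLTAgent.Torsion
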